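import Fermat.Agent.S18.Descent

set_option autoImplicit false

/-!
# T18 / Dia / Ext : extension of an endomorphism `σ` of `M` to `M(x)` fixing `x`

`P ∈ M[X]` monic, `σ`-invariant, `P = (X - x) G` over `L ⊇ M` with `G` irreducible of degree `≥ 2`.
-/

noncomputable section

namespace Fermat.Agent.T24.T18.Dia

open Polynomial IntermediateField Fermat.Agent.S18

theorem eval_ne_zero_of_irreducible {L : Type*} [Field L] {G : L[X]} (hG : Irreducible G)
    (hG2 : 2 ≤ G.natDegree) (y : L) : G.eval y ≠ 0 := by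
  intro h
  have h1 := degree_eq_one_of_irreducible_of_root hG h
  have h2 : G.natDegree = 1 := natDegree_eq_of_degree_eq_some h1
  omega

theorem exists_ext {M L : Type*} [Field M] [Field L] [Algebra M L] (x : L) (P : M[X]) (hP : P.Monic)
    (G : L[X]) (hG : Irreducible G) (hG2 : 2 ≤ G.natDegree)
    (hfac : P.map (algebraMap M L) = (X - C x) * G) (σ : M →+* M) (hσ : P.map σ = P) :
    ∃ τ : M⟮x⟯ →+* L, (∀ m : M, τ (algebraMap M M⟮x⟯ m) = algebraMap M L (σ m)) ∧
      τ (AdjoinSimple.gen M x) = x := by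
  obtain ⟨hint, hdeg⟩ := Desc.natDegree_minpoly_mem x P hP G hG hfac
  have hPx : eval₂ ((algebraMap M L).comp σ) x P = 0 := by
    rw [← eval_map, ← Polynomial.map_map, hσ, hfac]
    simp
  have key : eval₂ ((algebraMap M L).comp σ) x (minpoly M x) = 0 := by
    rcases hdeg with h1 | h1
    · obtain ⟨x₀, rfl⟩ := minpoly.natDegree_eq_one_iff.1 h1
      rw [minpoly.eq_X_sub_C, eval₂_sub, eval₂_X, eval₂_C, RingHom.comp_apply, sub_eq_zero]
      have h2 : P.eval x₀ = 0 := by
        apply (algebraMap M L).injective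
        rw [map_zero, ← eval₂_hom, ← eval_map, hfac]
        simp
      have h3 : P.eval (σ x₀) = 0 := by
        conv_lhs => rw [← hσ]
        rw [eval_map, eval₂_hom, h2, map_zero]
      have h4 : (P.map (algebraMap M L)).eval (algebraMap M L (σ x₀)) = 0 := by
        rw [eval_map, eval₂_hom, h3, map_zero]
      rw [hfac, eval_mul, eval_sub, eval_X, eval_C, mul_eq_zero] at h4
      rcases h4 with h4 | h4
      · exact (sub_eq_zero.1 h4).symm
      · exact absurd h4 (eval_ne_zero_of_irreducible hG hG2 _)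
    · have h2 : P = minpoly M x :=
        eq_of_monic_of_dvd_of_natDegree_le (minpoly.monic hint) hP
          (minpoly.dvd M x (by rw [aeval_def, ← eval_map, hfac]; simp)) h1.ge
      rw [← h2]
      exact hPx
  refine ⟨(AdjoinRoot.lift ((algebraMap M L).comp σ) x key).comp
    (adjoinRootEquivAdjoin M hint).symm.toAlgHom.toRingHom, fun m => ?_, ?_⟩
  · rw [RingHom.comp_apply]
    have h1 : (adjoinRootEquivAdjoin M hint).symm.toAlgHom.toRingHom (algebraMap M M⟮x⟯ m) =
        AdjoinRoot.of (minpoly M x) m := (adjoinRootEquivAdjoin M hint).symm.commutes m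
    rw [h1, AdjoinRoot.lift_of, RingHom.comp_apply]
  · rw [RingHom.comp_apply]
    have h1 : (adjoinRootEquivAdjoin M hint).symm.toAlgHom.toRingHom (AdjoinSimple.gen M x) =
        AdjoinRoot.root (minpoly M x) := adjoinRootEquivAdjoin_symm_apply_gen M hint
    rw [h1, AdjoinRoot.lift_root]

end Fermat.Agent.T24.T18.Dia
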