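import Fermat.Agent.S48.T18.HSide
import Fermat.Agent.S48.T24.Ops

set_option autoImplicit false

/-!
# T18 / Dia / Sigma : the diamond operators on `F_K`

`sigma ι N g : F_K →+* F_K` with `toFN ι N (sigma ι N g f) = T24.diaF N g (toFN ι N f)`.
-/

noncomputable section

namespace Fermat.Agent.T24.T18.Dia

open Fermat.Agent.S18 Fermat.Agent.S24

open Polynomial IntermediateField ModularCurve CongruenceSubgroup

variable {K : Type} [Field K] [Algebra ℚ K] (ι : K →+* Kb) (N : ℕ) [NeZero N] [Cond N] (g : Gamma0 N)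

theorem toFN_algebraMap (c : K) :
    toFN ι N (algebraMap K (modularFunctionFieldFullC K N) c) = algebraMap Kb (FN N) (ι c) := by
  apply Subtype.ext
  rw [toFN_coe]
  show coeffMap ι (algebraMap K (LaurentSeries K) c) = algebraMap Kb (LaurentSeries Kb) (ι c)
  rw [algebraMap_laurentSeries_eq_single, coeffMap_single, ← algebraMap_laurentSeries_eq_single]

theorem exists_sigma (f : modularFunctionFieldFullC K N) :
    ∃ f' : modularFunctionFieldFullC K N, toFN ι N f' = diaF N g (toFN ι N f) := by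
  have key : ∀ y : LaurentSeries K, y ∈ IntermediateField.adjoin K (divisorExpansionsC K N) →
      ∃ f₁ f' : modularFunctionFieldFullC K N, f₁.1 = y ∧ toFN ι N f' = diaF N g (toFN ι N f₁) := by
    intro y hy
    induction hy using IntermediateField.adjoin_induction with
    | mem y hy =>
      rcases hy with ⟨d, hd0, hd, rfl⟩ | ⟨e, he0, b, he, rfl⟩
      · refine ⟨HSide.jdK K N d hd, HSide.jdK K N d hd, rfl, ?_⟩
        have h1 : toFN ι N (HSide.jdK K N d hd) = thetaIncl N ⟨Jser d, Jser_mem_A0 hd⟩ :=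
          Subtype.ext (HSide.toFN_jdK ι N d hd)
        rw [h1, diaF_incl, diaA_Jser N g hd]
      · refine ⟨⟨TserC K (Cond.D N) e b, TserC_mem_full K N he b⟩,
          ⟨TserC K (Cond.D N) e (b * (((g : Matrix.SpecialLinearGroup (Fin 2) ℤ) 1 1 : ℤ) : ZMod (Cond.D N))),
            TserC_mem_full K N he _⟩, rfl, ?_⟩
        have h1 : ∀ b' : ZMod (Cond.D N),
            toFN ι N ⟨TserC K (Cond.D N) e b', TserC_mem_full K N he b'⟩ =
              thetaIncl N ⟨Tser (Cond.D N) e b', Tser_mem_A0 he b'⟩ :=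
          fun b' => Subtype.ext (coeffMap_TserC ι _ e b')
        rw [h1, h1, diaF_incl, diaA_Tser N g he]
    | algebraMap r =>
      refine ⟨algebraMap K _ r, algebraMap K _ r, rfl, ?_⟩
      rw [toFN_algebraMap, AlgEquiv.commutes]
    | add y z _ _ h1 h2 =>
      obtain ⟨f1, g1, rfl, h1⟩ := h1
      obtain ⟨f2, g2, rfl, h2⟩ := h2
      exact ⟨f1 + f2, g1 + g2, rfl, by rw [map_add, map_add, map_add, h1, h2]⟩
    | inv y _ h1 =>
      obtain ⟨f1, g1, rfl, h1⟩ := h1
      exact ⟨f1⁻¹, g1⁻¹, rfl, by rw [map_inv₀, map_inv₀, map_inv₀, h1]⟩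
    | mul y z _ _ h1 h2 =>
      obtain ⟨f1, g1, rfl, h1⟩ := h1
      obtain ⟨f2, g2, rfl, h2⟩ := h2
      exact ⟨f1 * f2, g1 * g2, rfl, by rw [map_mul, map_mul, map_mul, h1, h2]⟩
  obtain ⟨f₁, f', h1, h2⟩ := key f.1 f.2
  have : f₁ = f := Subtype.ext h1
  rw [this] at h2
  exact ⟨f', h2⟩

/-- the diamond operator on `F_K`. -/
def sigma : modularFunctionFieldFullC K N →+* modularFunctionFieldFullC K N where
  toFun f := (exists_sigma ι N g f).choose
  map_one' := (toFN ι N).injective (by rw [(exists_sigma ι N g 1).choose_spec, map_one, map_one])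
  map_zero' := (toFN ι N).injective (by
    rw [(exists_sigma ι N g 0).choose_spec, map_zero, map_zero])
  map_mul' a b := (toFN ι N).injective (by
    rw [(exists_sigma ι N g (a * b)).choose_spec, map_mul, map_mul, map_mul,
      (exists_sigma ι N g a).choose_spec, (exists_sigma ι N g b).choose_spec])
  map_add' a b := (toFN ι N).injective (by
    rw [(exists_sigma ι N g (a + b)).choose_spec, map_add, map_add, map_add,
      (exists_sigma ι N g a).choose_spec, (exists_sigma ι N g b).choose_spec])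

theorem toFN_sigma (f : modularFunctionFieldFullC K N) :
    toFN ι N (sigma ι N g f) = diaF N g (toFN ι N f) := (exists_sigma ι N g f).choose_spec

theorem sigma_algebraMap (c : K) :
    sigma ι N g (algebraMap K (modularFunctionFieldFullC K N) c) = algebraMap K _ c := by
  apply (toFN ι N).injective
  rw [toFN_sigma, toFN_algebraMap, AlgEquiv.commutes]

theorem sigma_jK0 : sigma ι N g (HSide.jK0 K N) = HSide.jK0 K N := by
  apply (toFN ι N).injective
  rw [toFN_sigma, HSide.toFN_jK0]
  have h1 : jF N = thetaIncl N ⟨Jser 1, Jser_mem_A0 (one_dvd N)⟩ := rfl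
  rw [h1, diaF_incl, diaA_Jser N g (one_dvd N)]

end Fermat.Agent.T24.T18.Dia
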