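import Fermat.Agent.S48.T18.VMain
import Fermat.Agent.S48.T18.Descent
import Fermat.Agent.S48.T18.Dia.Ext
import Fermat.Agent.S48.T18.Dia.Sigma

set_option autoImplicit false

/-!
# T18 / Dia / Emb : `inc ∘ dia_K` is (the restriction of) an embedding of `F_K(x)` over `K(x)`; consequence for the Gauss valuation
-/

noncomputable section

namespace Fermat.Agent.T24.T18

open Fermat.Agent.S18 Fermat.Agent.S24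

open ModularCurve Polynomial IntermediateField AlgebraicCurve Fermat.Agent.S18.V CongruenceSubgroup

namespace Ctx

variable {N : ℕ} [NeZero N] [Cond N] {ℓ p : ℕ} {A : ValuationSubring Kb} (𝒞 : Ctx N ℓ p A) (g : Gamma0 N)

theorem two_le_of_fac {M L : Type*} [Field M] [Field L] [Algebra M L] {P : M[X]} {x : L} {G : L[X]}
    (hfac : P.map (algebraMap M L) = (X - C x) * G) (hG : G ≠ 0) (hP : 3 ≤ P.natDegree) :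
    2 ≤ G.natDegree := by
  have h := congrArg natDegree hfac
  rw [natDegree_map, natDegree_mul (X_sub_C_ne_zero x) hG, natDegree_X_sub_C] at h
  omega

theorem exists_tau : ∃ τ : (𝒞.FK)⟮xK 𝒞.K 𝒞.Λ⟯ →+* LaurentSeries 𝒞.K,
    (∀ m : 𝒞.FK, τ (algebraMap 𝒞.FK (𝒞.FK)⟮xK 𝒞.K 𝒞.Λ⟯ m) = (Dia.sigma 𝒞.ι N g m).1) ∧
      τ (AdjoinSimple.gen 𝒞.FK (xK 𝒞.K 𝒞.Λ)) = xK 𝒞.K 𝒞.Λ := by
  set x := xK 𝒞.K 𝒞.Λ with hx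
  have hxo : x.order = -1 := order_xK 𝒞.K 𝒞.Λ
  set jF : 𝒞.FK := HSide.jK0 𝒞.K N with hjF
  have hjmap : algebraMap 𝒞.FK (LaurentSeries 𝒞.K) jF = jqModC 𝒞.K := rfl
  have hσj : Dia.sigma 𝒞.ι N g jF = jF := Dia.sigma_jK0 𝒞.ι N g
  by_cases hℓ3 : ℓ = 3
  · have hΛ : 𝒞.Λ = line2 := by simp [Ctx.Λ, lineOf, hℓ3]
    have hrel := xK_rel 𝒞.K 𝒞.Λ (Or.inl hΛ)
    rw [← hx, hΛ] at hrel
    simp only [line2, map_pow, map_add, aeval_X, map_ofNat] at hrel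
    obtain ⟨G, hG, hfac⟩ := Desc.fac2 x (jqModC 𝒞.K) hxo hrel (by norm_num)
    have hfac' : ((X + 256) ^ 3 - C jF * X ^ 2 : (𝒞.FK)[X]).map (algebraMap 𝒞.FK (LaurentSeries 𝒞.K)) =
        (X - C x) * G := by
      rw [← hfac]
      simp only [Polynomial.map_sub, Polynomial.map_mul, Polynomial.map_pow, Polynomial.map_add,
        Polynomial.map_X, Polynomial.map_C, Polynomial.map_ofNat, hjmap]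
    have hdeg : ((X + 256) ^ 3 - C jF * X ^ 2 : (𝒞.FK)[X]).natDegree = 3 := by compute_degree!
    exact Dia.exists_ext x ((X + 256) ^ 3 - C jF * X ^ 2) (by monicity!) G hG
      (two_le_of_fac hfac' hG.ne_zero hdeg.ge) hfac' (Dia.sigma 𝒞.ι N g) (by
        simp only [Polynomial.map_sub, Polynomial.map_mul, Polynomial.map_pow, Polynomial.map_add,
          Polynomial.map_X, Polynomial.map_C, Polynomial.map_ofNat, hσj])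
  · have hΛ : 𝒞.Λ = line3 := by simp [Ctx.Λ, lineOf, hℓ3]
    have hrel := xK_rel 𝒞.K 𝒞.Λ (Or.inr hΛ)
    rw [← hx, hΛ] at hrel
    simp only [line3, map_pow, map_add, map_mul, aeval_X, map_ofNat] at hrel
    obtain ⟨G, hG, hfac⟩ := Desc.fac3 x (jqModC 𝒞.K) hxo hrel (by norm_num)
    have hfac' : ((X + 27) * (X + 243) ^ 3 - C jF * X ^ 3 : (𝒞.FK)[X]).map
        (algebraMap 𝒞.FK (LaurentSeries 𝒞.K)) = (X - C x) * G := by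
      rw [← hfac]
      simp only [Polynomial.map_sub, Polynomial.map_mul, Polynomial.map_pow, Polynomial.map_add,
        Polynomial.map_X, Polynomial.map_C, Polynomial.map_ofNat, hjmap]
    have hdeg : ((X + 27) * (X + 243) ^ 3 - C jF * X ^ 3 : (𝒞.FK)[X]).natDegree = 4 := by
      compute_degree!
    exact Dia.exists_ext x ((X + 27) * (X + 243) ^ 3 - C jF * X ^ 3) (by monicity!) G hG
      (two_le_of_fac hfac' hG.ne_zero (by rw [hdeg]; norm_num)) hfac' (Dia.sigma 𝒞.ι N g) (by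
        simp only [Polynomial.map_sub, Polynomial.map_mul, Polynomial.map_pow, Polynomial.map_add,
          Polynomial.map_X, Polynomial.map_C, Polynomial.map_ofNat, hσj])

theorem mem_FKx (y : ↥𝒞.E1) : y.1 ∈ (𝒞.FK)⟮xK 𝒞.K 𝒞.Λ⟯ := by
  have h1 : ((𝒞.FK)⟮xK 𝒞.K 𝒞.Λ⟯).restrictScalars 𝒞.K = 𝒞.E0 :=
    IntermediateField.adjoin_adjoin_left 𝒞.K (divisorExpansionsC 𝒞.K N) {xK 𝒞.K 𝒞.Λ}
  have h2 := 𝒞.E1_le_E0 y.2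
  rw [← h1] at h2
  exact h2

theorem FK_le_E1 : 𝒞.FK ≤ 𝒞.E1 := 𝒞.FK_le_E0.trans 𝒞.E0_le_E1

theorem exists_emb : ∃ φ : ↥𝒞.E1 →+* (vdata 𝒞.R 𝒞.K).Ω,
    φ ∈ Emb (vdata 𝒞.R 𝒞.K) (⟨xK 𝒞.K 𝒞.Λ, 𝒞.triv.x_mem⟩ : ↥𝒞.E1) (inc 𝒞.K (xK 𝒞.K 𝒞.Λ)) ∧
      ∀ f : 𝒞.FK, φ ⟨f.1, 𝒞.FK_le_E1 f.2⟩ = inc 𝒞.K (Dia.sigma 𝒞.ι N g f).1 := by
  obtain ⟨τ, hτ1, hτ2⟩ := 𝒞.exists_tau g
  let incl : ↥𝒞.E1 →+* (𝒞.FK)⟮xK 𝒞.K 𝒞.Λ⟯ :=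
    (𝒞.E1.val.toRingHom).codRestrict ((𝒞.FK)⟮xK 𝒞.K 𝒞.Λ⟯) 𝒞.mem_FKx
  have hf : ∀ f : 𝒞.FK, incl ⟨f.1, 𝒞.FK_le_E1 f.2⟩ = algebraMap 𝒞.FK (𝒞.FK)⟮xK 𝒞.K 𝒞.Λ⟯ f :=
    fun f => Subtype.ext rfl
  refine ⟨(inc 𝒞.K).comp (τ.comp incl), ⟨?_, ?_⟩, fun f => ?_⟩
  · ext c
    have h1 : incl (algebraMap 𝒞.K ↥𝒞.E1 c) =
        algebraMap 𝒞.FK (𝒞.FK)⟮xK 𝒞.K 𝒞.Λ⟯ (algebraMap 𝒞.K 𝒞.FK c) := Subtype.ext rfl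
    rw [RingHom.comp_apply, RingHom.comp_apply, RingHom.comp_apply, h1, hτ1, Dia.sigma_algebraMap]
    rfl
  · have h1 : incl (⟨xK 𝒞.K 𝒞.Λ, 𝒞.triv.x_mem⟩ : ↥𝒞.E1) = AdjoinSimple.gen 𝒞.FK (xK 𝒞.K 𝒞.Λ) :=
      Subtype.ext rfl
    rw [RingHom.comp_apply, RingHom.comp_apply, h1, hτ2]
  · rw [RingHom.comp_apply, RingHom.comp_apply, hf, hτ1]

theorem tame1 : IsTameP1 (vdata 𝒞.R 𝒞.K) (⟨xK 𝒞.K 𝒞.Λ, 𝒞.triv.x_mem⟩ : ↥𝒞.E1)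
    (inc 𝒞.K (xK 𝒞.K 𝒞.Λ)) ℂ 𝒞.jK 𝒞.cR N 𝒞.Λ.ec N := 𝒞.triv.isTameP1 𝒞.distinctRed_triv

theorem hconst1 : ∀ y : ↥𝒞.E1, IsAlgebraic 𝒞.K y → y ∈ (algebraMap 𝒞.K ↥𝒞.E1).range := 𝒞.triv.hconst

/-- the diamonds preserve the valuation ring of the Gauss valuation. -/
theorem inc_sigma_mem_iff (f : 𝒞.FK) :
    inc 𝒞.K (Dia.sigma 𝒞.ι N g f).1 ∈ gaussO 𝒞.R 𝒞.K ↔ inc 𝒞.K f.1 ∈ gaussO 𝒞.R 𝒞.K := by
  obtain ⟨φ, hφ, hφf⟩ := 𝒞.exists_emb g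
  have h := S48.V1.mem_iff_of_tame 𝒞.tame1 𝒞.hconst1 hφ
    (incM_mem 𝒞.R (⟨xK 𝒞.K 𝒞.Λ, 𝒞.triv.x_mem⟩ : ↥𝒞.E1)) ⟨f.1, 𝒞.FK_le_E1 f.2⟩
  rw [hφf, incM_apply] at h
  exact h

theorem inc_sigma_mem_nonunits_iff (f : 𝒞.FK) :
    inc 𝒞.K (Dia.sigma 𝒞.ι N g f).1 ∈ (gaussO 𝒞.R 𝒞.K).nonunits ↔
      inc 𝒞.K f.1 ∈ (gaussO 𝒞.R 𝒞.K).nonunits := by
  obtain ⟨φ, hφ, hφf⟩ := 𝒞.exists_emb g
  have h := S48.V1.mem_nonunits_iff_of_tame 𝒞.tame1 𝒞.hconst1 hφ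
    (incM_mem 𝒞.R (⟨xK 𝒞.K 𝒞.Λ, 𝒞.triv.x_mem⟩ : ↥𝒞.E1)) ⟨f.1, 𝒞.FK_le_E1 f.2⟩
  rw [hφf, incM_apply] at h
  exact h

end Ctx

end Fermat.Agent.T24.T18
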