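import Fermat.Agent.S48.T18.Dia.Emb
import Fermat.Agent.S48.T18.KPack
import Fermat.Agent.S48.T18.G.Norm
import Fermat.Agent.S48.GES1.Main

set_option autoImplicit false

/-!
# T18 / Dia / Main : the diamond operators preserve the Gauss norm on `ℚ̄[j(q^d), t_b(q^e)]`
-/

noncomputable section

namespace Fermat.Agent.T24.T18

open Fermat.Agent.S18 Fermat.Agent.S24

open ModularCurve Polynomial IntermediateField AlgebraicCurve Fermat.Agent.S18.V CongruenceSubgroup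

namespace Ctx

variable {N : ℕ} [NeZero N] [Cond N] {ℓ p : ℕ} {A : ValuationSubring Kb} (𝒞 : Ctx N ℓ p A)

theorem iotaK_mem_iff (c : 𝒞.K) : iotaK 𝒞.K c ∈ gaussO 𝒞.R 𝒞.K ↔ c ∈ 𝒞.R := by
  constructor
  · intro h
    by_contra hc
    have hc0 : c ≠ 0 := fun h0 => hc (h0 ▸ 𝒞.R.zero_mem)
    have h1 : c⁻¹ ∈ 𝒞.R.nonunits := by
      rw [ValuationSubring.mem_nonunits_iff, map_inv₀]
      rw [← ValuationSubring.valuation_le_one_iff, not_le] at hc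
      exact inv_lt_one_of_one_lt₀ hc
    have h2 : c⁻¹ ∈ 𝒞.R := ValuationSubring.nonunits_subset h1
    have h3 := (vdata 𝒞.R 𝒞.K).map_nonunit ⟨c⁻¹, h2⟩ (by
      rw [VSide.isUnit_iff, not_not]; exact h1)
    have h4 : iotaK 𝒞.K c * iotaK 𝒞.K c⁻¹ ∈ (gaussO 𝒞.R 𝒞.K).nonunits :=
      mul_mem_nonunits _ h h3
    rw [← map_mul, mul_inv_cancel₀ hc0, map_one] at h4
    exact one_notMem_nonunits _ h4
  · intro h
    exact (vdata 𝒞.R 𝒞.K).map_mem ⟨c, h⟩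

theorem iotaK_mem_nonunits_iff (c : 𝒞.K) :
    iotaK 𝒞.K c ∈ (gaussO 𝒞.R 𝒞.K).nonunits ↔ c ∈ 𝒞.R.nonunits := by
  constructor
  · intro h
    by_contra hc
    have hc0 : c ≠ 0 := fun h0 => hc (h0 ▸ zero_mem_nonunits _)
    have h1 : c⁻¹ ∈ 𝒞.R := by
      rw [ValuationSubring.mem_nonunits_iff, not_lt] at hc
      rw [← ValuationSubring.valuation_le_one_iff, map_inv₀]
      exact inv_le_one_of_one_le₀ hc
    have h4 : iotaK 𝒞.K c * iotaK 𝒞.K c⁻¹ ∈ (gaussO 𝒞.R 𝒞.K).nonunits :=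
      mul_mem_nonunits' _ h ((𝒞.iotaK_mem_iff _).2 h1)
    rw [← map_mul, mul_inv_cancel₀ hc0, map_one] at h4
    exact one_notMem_nonunits _ h4
  · intro h
    exact (vdata 𝒞.R 𝒞.K).map_nonunit ⟨c, ValuationSubring.nonunits_subset h⟩ (by
      rw [VSide.isUnit_iff, not_not]; exact h)

/-- `s = c y` with `y` primitive: the Gauss valuation of `s` is that of `c`. -/
theorem inc_mem_iff_of_prim (s : LaurentSeries 𝒞.K) (c : 𝒞.K) (a' : LaurentSeries A)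
    (hra : redA A a' ≠ 0) (hs : coeffMap 𝒞.ι s = HahnSeries.C (𝒞.ι c) * incA A a') :
    (inc 𝒞.K s ∈ gaussO 𝒞.R 𝒞.K ↔ c ∈ 𝒞.R) ∧
      (inc 𝒞.K s ∈ (gaussO 𝒞.R 𝒞.K).nonunits ↔ c ∈ 𝒞.R.nonunits) := by
  by_cases hc0 : c = 0
  · have hs0 : s = 0 := by
      apply (coeffMap 𝒞.ι).injective
      rw [hs, hc0, map_zero, map_zero, zero_mul, map_zero]
    rw [hs0, hc0, map_zero]
    exact ⟨⟨fun _ => 𝒞.R.zero_mem, fun _ => (gaussO 𝒞.R 𝒞.K).zero_mem⟩,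
      ⟨fun _ => zero_mem_nonunits _, fun _ => zero_mem_nonunits _⟩⟩
  set y : LaurentSeries 𝒞.K := HahnSeries.C c⁻¹ * s with hy
  have hyι : coeffMap 𝒞.ι y = incA A a' := by
    have h1 : coeffMap 𝒞.ι (HahnSeries.C c⁻¹) = HahnSeries.C (𝒞.ι c)⁻¹ := by
      rw [← map_inv₀]
      exact coeffMap_single _ _ _
    rw [hy, map_mul, hs, h1, ← mul_assoc, ← map_mul, inv_mul_cancel₀ (by
      rw [Ne, map_eq_zero]; exact hc0), map_one, one_mul]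
  have hyc : ∀ n, 𝒞.ι (y.coeff n) = ((a'.coeff n : A) : Kb) := by
    intro n
    have := congrArg (fun t => t.coeff n) hyι
    simp only [coeffMap_coeff] at this
    exact this
  obtain ⟨y₀, hy₀, hy₁⟩ := VSide.exists_lift 𝒞.R y (fun n => by
    rw [mem_R_iff, hyc]
    exact (a'.coeff n).2)
  have hunit : ∃ n, IsUnit (y₀.coeff n) := by
    by_contra hcon
    push Not at hcon
    apply hra
    rw [← smallA_incA_iff]
    intro n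
    have h1 := hcon n
    rw [VSide.isUnit_iff, not_not, hy₁, mem_R_nonunits_iff, hyc] at h1
    rw [coeffMap_coeff]
    exact h1
  have hu1 : inc 𝒞.K y ∈ gaussO 𝒞.R 𝒞.K := by
    rw [← hy₀]; exact inc_mem_gaussO 𝒞.R 𝒞.K y₀
  have hu2 : inc 𝒞.K y ∉ (gaussO 𝒞.R 𝒞.K).nonunits := by
    rw [← hy₀, inc_mem_nonunits_iff]
    push Not
    exact hunit
  have hu3 : (inc 𝒞.K y)⁻¹ ∈ gaussO 𝒞.R 𝒞.K := inv_mem_of_notMem_nonunits _ hu1 hu2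
  have hu0 : inc 𝒞.K y ≠ 0 := fun h0 => hu2 (h0 ▸ zero_mem_nonunits _)
  have hsy : inc 𝒞.K s = iotaK 𝒞.K c * inc 𝒞.K y := by
    have h1 : s = algebraMap 𝒞.K (LaurentSeries 𝒞.K) c * y := by
      rw [hy, algebraMap_laurentSeries_eq_single, ← mul_assoc]
      have : (HahnSeries.single 0 c : LaurentSeries 𝒞.K) * HahnSeries.C c⁻¹ = 1 := by
        show HahnSeries.C c * HahnSeries.C c⁻¹ = 1
        rw [← map_mul, mul_inv_cancel₀ hc0, map_one]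
      rw [this, one_mul]
    conv_lhs => rw [h1]
    rw [map_mul]
    rfl
  have hcs : iotaK 𝒞.K c = inc 𝒞.K s * (inc 𝒞.K y)⁻¹ := by
    rw [hsy, mul_assoc, mul_inv_cancel₀ hu0, mul_one]
  constructor
  · rw [← 𝒞.iotaK_mem_iff]
    constructor
    · intro h
      rw [hcs]
      exact mul_mem h hu3
    · intro h
      rw [hsy]
      exact mul_mem h hu1
  · rw [← 𝒞.iotaK_mem_nonunits_iff]
    constructor
    · intro h
      rw [hcs]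
      exact mul_mem_nonunits' _ h hu3
    · intro h
      rw [hsy]
      exact mul_mem_nonunits' _ h hu1

theorem inc_mem_of_intA (s : LaurentSeries 𝒞.K) (h : IntA A (coeffMap 𝒞.ι s)) :
    inc 𝒞.K s ∈ gaussO 𝒞.R 𝒞.K := by
  obtain ⟨y₀, hy₀, -⟩ := VSide.exists_lift 𝒞.R s (fun n => by
    rw [mem_R_iff, ← coeffMap_coeff]
    exact h n)
  rw [← hy₀]
  exact inc_mem_gaussO 𝒞.R 𝒞.K y₀

theorem inc_mem_of_smallA (s : LaurentSeries 𝒞.K) (h : SmallA A (coeffMap 𝒞.ι s)) :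
    inc 𝒞.K s ∈ (gaussO 𝒞.R 𝒞.K).nonunits := by
  obtain ⟨y₀, hy₀, hy₁⟩ := VSide.exists_lift 𝒞.R s (fun n => by
    rw [mem_R_iff, ← coeffMap_coeff]
    exact ValuationSubring.nonunits_subset (h n))
  rw [← hy₀, inc_mem_nonunits_iff]
  intro n
  rw [VSide.isUnit_iff, not_not, hy₁, mem_R_nonunits_iff, ← coeffMap_coeff]
  exact h n

end Ctx

/-- a trivial context whose field contains given data. -/
theorem exists_trivCtx (N : ℕ) [NeZero N] [Cond N] (ℓ : ℕ) (hℓ : ℓ.Prime) (hℓN : ¬ ℓ ∣ N)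
    (A : ValuationSubring Kb) (hA : A.LiesOverPrime ℓ) (a : FN N) (c : Kb) :
    ∃ (p : ℕ) (𝒞 : Ctx N ℓ p A) (a' : 𝒞.FK) (c' : 𝒞.K), toFN 𝒞.ι N a' = a ∧ 𝒞.ι c' = c := by
  obtain ⟨p, hp, hpℓ⟩ : ∃ p : ℕ, p.Prime ∧ p ≠ ℓ := by
    by_cases h2 : ℓ = 2
    · exact ⟨3, Nat.prime_three, by omega⟩
    · exact ⟨2, Nat.prime_two, fun h => h2 h.symm⟩
  obtain ⟨Ka, hKa, haG⟩ := KPack.exists_mem_G N a.1 a.2
  have : NeZero p := ⟨hp.ne_zero⟩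
  obtain ⟨ζ, hζ⟩ := HasEnoughRootsOfUnity.exists_primitiveRoot Kb p
  obtain ⟨ζN, hζN⟩ := HasEnoughRootsOfUnity.exists_primitiveRoot Kb N
  have hint : ∀ c : Kb, FiniteDimensional ℚ ℚ⟮c⟯ := fun c =>
    IntermediateField.adjoin.finiteDimensional ((AlgebraicClosure.isAlgebraic ℚ).isIntegral.isIntegral c)
  have hcf := hint c
  have hζf := hint ζ
  have hζNf := hint ζN
  obtain ⟨K₁, hK₁, h1, h3, h4, h5⟩ : ∃ K₁ : IntermediateField ℚ Kb, FiniteDimensional ℚ K₁ ∧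
      Ka ≤ K₁ ∧ c ∈ K₁ ∧ ζ ∈ K₁ ∧ ζN ∈ K₁ := by
    have f2 : FiniteDimensional ℚ ↥(Ka ⊔ ℚ⟮c⟯) := IntermediateField.finiteDimensional_sup _ _
    have f3 : FiniteDimensional ℚ ↥(Ka ⊔ ℚ⟮c⟯ ⊔ ℚ⟮ζ⟯) :=
      IntermediateField.finiteDimensional_sup _ _
    refine ⟨Ka ⊔ ℚ⟮c⟯ ⊔ ℚ⟮ζ⟯ ⊔ ℚ⟮ζN⟯, IntermediateField.finiteDimensional_sup _ _, ?_, ?_, ?_, ?_⟩
    · exact le_sup_left.trans (le_sup_left.trans le_sup_left)
    · exact (le_sup_right.trans (le_sup_left.trans le_sup_left) :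
        ℚ⟮c⟯ ≤ Ka ⊔ ℚ⟮c⟯ ⊔ ℚ⟮ζ⟯ ⊔ ℚ⟮ζN⟯) (IntermediateField.mem_adjoin_simple_self ℚ c)
    · exact (le_sup_right.trans le_sup_left :
        ℚ⟮ζ⟯ ≤ Ka ⊔ ℚ⟮c⟯ ⊔ ℚ⟮ζ⟯ ⊔ ℚ⟮ζN⟯) (IntermediateField.mem_adjoin_simple_self ℚ ζ)
    · exact (le_sup_right :
        ℚ⟮ζN⟯ ≤ Ka ⊔ ℚ⟮c⟯ ⊔ ℚ⟮ζ⟯ ⊔ ℚ⟮ζN⟯) (IntermediateField.mem_adjoin_simple_self ℚ ζN)
  obtain ⟨K, fK, nfK, galK, ι, hι⟩ := KPack.exists_numberField K₁ hK₁
  obtain ⟨a', ha'⟩ := KPack.exists_descent N ι K₁ hι a.1 (KPack.G_mono N h1 haG)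
  obtain ⟨c', hc'⟩ := hι c h3
  obtain ⟨ζ', rfl⟩ := hι ζ h4
  obtain ⟨ζN', rfl⟩ := hι ζN h5
  exact ⟨p, trivCtx N ℓ p A hℓ hℓN hA hp hpℓ K ι ζ' (hζ.of_map_of_injective ι.injective) ζN'
    (hζN.of_map_of_injective ι.injective), a', c', Subtype.ext ha', hc'⟩

/-- **the diamond operators preserve the Gauss norm** on `ℚ̄[j(q^d), t_b(q^e)]`. -/
theorem diaGauss (N r : ℕ) [NeZero N] [Cond N] (hr : r.Prime) (hrN : ¬ r ∣ N) :
    ∀ (g : Gamma0 N) (A : ValuationSubring Kb), A.LiesOverPrime r → ∀ a : FN N, a.1 ∈ A0 N →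
      ((IntA A a.1 → IntA A (diaF N g a).1) ∧ (SmallA A a.1 → SmallA A (diaF N g a).1)) := by
  intro g A hA a ha
  by_cases ha0 : a = 0
  · rw [ha0, map_zero]
    exact ⟨fun h => h, fun h => h⟩
  have hb0 : (diaF N g a).1 ≠ 0 := by
    intro h
    apply ha0
    have h1 : diaF N g a = 0 := Subtype.ext h
    rwa [map_eq_zero_iff _ (diaF N g).injective] at h1
  obtain ⟨c, a', hc, -, hra, hb⟩ := norm_exists_A0 hr A hA N (diaF N g a).1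
    (S48.GES1.diaF_mem_SA g ha) hb0
  obtain ⟨p, 𝒞, aK, cK, haK, hcK⟩ := exists_trivCtx N r hr hrN A hA a c
  have hs : coeffMap 𝒞.ι (Dia.sigma 𝒞.ι N g aK).1 = HahnSeries.C (𝒞.ι cK) * incA A a' := by
    rw [← toFN_coe, Dia.toFN_sigma, haK, hcK]
    exact hb
  obtain ⟨h1, h2⟩ := 𝒞.inc_mem_iff_of_prim _ cK a' hra hs
  have haK' : coeffMap 𝒞.ι aK.1 = a.1 := by rw [← toFN_coe, haK]
  have hcoeff : ∀ n, (diaF N g a).1.coeff n = c * ((a'.coeff n : A) : Kb) := by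
    intro n
    rw [hb, HahnSeries.C_mul_eq_smul, HahnSeries.coeff_smul, smul_eq_mul, coeffMap_coeff]
    rfl
  constructor
  · intro hint n
    have h3 : cK ∈ 𝒞.R := h1.1 ((𝒞.inc_sigma_mem_iff g aK).2 (𝒞.inc_mem_of_intA _ (by rw [haK']; exact hint)))
    rw [Ctx.mem_R_iff, hcK] at h3
    rw [hcoeff]
    exact A.mul_mem _ _ h3 (a'.coeff n).2
  · intro hsm n
    have h3 : cK ∈ 𝒞.R.nonunits :=
      h2.1 ((𝒞.inc_sigma_mem_nonunits_iff g aK).2 (𝒞.inc_mem_of_smallA _ (by rw [haK']; exact hsm)))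
    rw [Ctx.mem_R_nonunits_iff, hcK] at h3
    rw [hcoeff]
    exact mul_mem_nonunits' _ h3 (a'.coeff n).2

end Fermat.Agent.T24.T18
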